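/-
Row 37 (S43), block E0, node `q = 3` (helper155).  ABSTRACT PART.

The classification of the closed points of the hub `BAD.LevelQ.LQ` (`LQ.classify`, `LQ.nodalModel`,
`LQ.exists_point_depth` of `BAD/LevelQ/Pt/B/ExportDepth.lean`) for a coordinate `x'` which is NOT `j`
(`x' = h₂`, `j x' = (1 + 256 x') ^ 3`): the cusps are detected by `J = j`, the modular equation is the
one of `j`, and the eta units are regular at every point where `x'(z)` is a unit.
-/
import Fermat.Agent.BAD.LevelQ.Pt.B.ExportDepth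
import Fermat.Agent.BAD.Model.Pre.Overlap

set_option autoImplicit false

noncomputable section

namespace Fermat.Agent.S43.E0.ThreeE

open Polynomial IntermediateField Fermat.Agent.S18 Fermat.Agent.S36.BP Fermat.Agent.BAD.Model
  Fermat.Agent.BAD.LevelQ Fermat.Agent.S44

variable {K₀ F' F : Type*} [Field K₀] [Field F'] [Field F] [Algebra K₀ F'] [Algebra K₀ F]
variable {A₀ : ValuationSubring K₀} {ϖ₀ : K₀} {q : ℕ} {al be : F' →ₐ[K₀] F} {w : F ≃ₐ[K₀] F}
  {γ : F' →+* F'} {Ow' : ValuationSubring F'} {V : Fin 2 → ValuationSubring F} {x' J : F'}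
  {R : Subring F}
variable {x y : F} {c : ℕ → ℕ → K₀} {a : K₀}

/-- `j h = (1 + a h) ^ 3`, `a` a unit of `A₀`. -/
structure JRel (A₀ : ValuationSubring K₀) (a : K₀) (h j : F) : Prop where
  unit : A₀.valuation a = 1
  ne : h ≠ 0
  rel : j * h = (1 + algebraMap K₀ F a * h) ^ 3

theorem runit_add_of_mem_rad (hR : IsPt A₀ R) {u r : F} (hu : RUnit R u) (hr : r ∈ rad R) :
    RUnit R (u + r) := by
  rcases runit_or_mem_rad (R.add_mem hu.mem hr.1) with h | h
  · exact h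
  · exfalso
    have h1 : u + r + -r ∈ rad R := hR.add_rad _ h _ (neg_mem_rad hr)
    rw [add_neg_cancel_right] at h1
    exact h1.2 hu

theorem JRel.inv_mem_rad_of_mem_rad {h j : F} (hJ : JRel A₀ a h j) (hR : IsPt A₀ R)
    (hh : h ∈ rad R) : j⁻¹ ∈ rad R := by
  have hu : RUnit R (1 + algebraMap K₀ F a * h) :=
    runit_add_of_mem_rad hR (RUnit.one R) (mul_mem_rad (hR.runit_const hJ.unit).mem hh)
  have hu3 := (hu.pow 3).inv
  have e : j⁻¹ = ((1 + algebraMap K₀ F a * h) ^ 3)⁻¹ * h := by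
    rw [← hJ.rel, mul_inv, mul_assoc, inv_mul_cancel₀ hJ.ne, mul_one]
  rw [e]
  exact mul_mem_rad hu3.mem hh

theorem JRel.inv_mem_rad_of_inv_mem_rad {h j : F} (hJ : JRel A₀ a h j) (hR : IsPt A₀ R)
    (hh : h⁻¹ ∈ rad R) : j⁻¹ ∈ rad R := by
  have hu : RUnit R (algebraMap K₀ F a + h⁻¹) :=
    runit_add_of_mem_rad hR (hR.runit_const hJ.unit) hh
  have hu3 := (hu.pow 3).inv
  have h0 := hJ.ne
  have hne : (algebraMap K₀ F a + h⁻¹) ^ 3 ≠ 0 := (hu.pow 3).1
  have e1 : j = (algebraMap K₀ F a + h⁻¹) ^ 3 * h ^ 2 := by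
    have : j = (1 + algebraMap K₀ F a * h) ^ 3 / h := by
      rw [← hJ.rel, mul_div_cancel_right₀ _ h0]
    rw [this]
    field_simp
    ring
  have e : j⁻¹ = ((algebraMap K₀ F a + h⁻¹) ^ 3)⁻¹ * h⁻¹ * h⁻¹ := by
    rw [e1, mul_inv, pow_two, mul_inv, mul_assoc]
  rw [e]
  exact mul_mem_rad (R.mul_mem hu3.mem hh.1) hh

theorem JRel.mem_of_runit {h j : F} (hJ : JRel A₀ a h j) (hR : IsPt A₀ R)
    (hh : RUnit R h) : j ∈ R := by
  have e : j = (1 + algebraMap K₀ F a * h) ^ 3 * h⁻¹ := by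
    rw [← hJ.rel, mul_assoc, mul_inv_cancel₀ hJ.ne, mul_one]
  rw [e]
  exact R.mul_mem (R.pow_mem (R.add_mem R.one_mem
    (R.mul_mem (hR.runit_const hJ.unit).mem hh.mem)) 3) hh.inv_mem

/-- **The dichotomy**: at a closed point of the model either `x'(z)` is a unit, or the point is a
cusp. -/
theorem pt_cases [CharZero K₀] (hac : IsAlgClosed (IsLocalRing.ResidueField A₀))
    (H : LQ A₀ ϖ₀ q al be w γ Ow' V x') (ha : JRel A₀ a (al x') (al J))
    (hb : JRel A₀ a (be x') (be J)) (C : CuspQ A₀ q V c (al J)⁻¹ (be J)⁻¹)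
    (hR : IsModelPt A₀ ϖ₀ (xx al be x') R) :
    RUnit R (al x') ∨ (al J)⁻¹ ∈ rad R := by
  have hP : IsPt A₀ R := hR.isPt H.mChart hac
  rcases H.ch₁_le_or hR with h | ⟨h, h'⟩
  · rcases runit_or_mem_rad (h _ (H.al_mem_ch₁ (self_mem_chart _))) with hu | hr
    · exact Or.inl hu
    · exact Or.inr (ha.inv_mem_rad_of_mem_rad hP hr)
  · have h1 : (al x')⁻¹ ∈ R := by
      rw [← map_inv₀]
      exact h _ (H.al_mem_ch₂ (self_mem_chart _))
    have h2 : (be x')⁻¹ ∈ R := by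
      rw [← map_inv₀]
      exact h _ (H.be_mem_ch₂ (self_mem_chart _))
    have h3 : (al x')⁻¹ * (be x')⁻¹ ∈ rad R := by
      rw [← mul_inv]
      exact h'
    right
    rcases runit_or_mem_rad h1 with hu | hr
    · have h4 : (be x')⁻¹ ∈ rad R := by
        have e : (be x')⁻¹ = ((al x')⁻¹)⁻¹ * ((al x')⁻¹ * (be x')⁻¹) := by
          rw [inv_mul_cancel_left₀ hu.1]
        rw [e]
        exact mul_mem_rad hu.2.2 h3
      exact C.rel.symm.mem_rad hP (fun a b => C.coeff_mem b a)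
        (hb.inv_mem_rad_of_inv_mem_rad hP h4)
    · exact ha.inv_mem_rad_of_inv_mem_rad hP hr

/-- a function which is regular outside the cusps lies in every point where `x'(z)` is a unit. -/
theorem mem_of_runit (H : LQ A₀ ϖ₀ q al be w γ Ow' V x') (hP : IsPt A₀ R)
    (hu : RUnit R (al x')) {z : F} (hz : ∃ k : ℕ, al x' ^ k * z ∈ ch₁ A₀ al be x') : z ∈ R := by
  obtain ⟨k, hk⟩ := hz
  have h1 : al x' ^ k * z ∈ R := by
    rw [← H.chart_al_eq] at hk
    exact chart_le_of_isPt hP hu.mem _ hk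
  have e : z = (al x' ^ k)⁻¹ * (al x' ^ k * z) := by
    rw [inv_mul_cancel_left₀ (pow_ne_zero _ hu.1)]
  rw [e]
  exact R.mul_mem (hu.pow k).inv_mem h1

/-- every closed point is a node or a smooth point. -/
theorem classify [CharZero K₀] (hac : IsAlgClosed (IsLocalRing.ResidueField A₀))
    (H : LQ A₀ ϖ₀ q al be w γ Ow' V x') (E : Eta (algebraMap K₀ F ϖ₀) V x y)
    (hx : ∃ k : ℕ, al x' ^ k * x ∈ ch₁ A₀ al be x') (hy : ∃ k : ℕ, al x' ^ k * y ∈ ch₁ A₀ al be x')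
    (ha : JRel A₀ a (al x') (al J)) (hb : JRel A₀ a (be x') (be J))
    (C : CuspQ A₀ q V c (al J)⁻¹ (be J)⁻¹)
    (hfin : ∀ R, IsModelPt A₀ ϖ₀ (xx al be x') R → FinAt A₀ R)
    (hR : IsModelPt A₀ ϖ₀ (xx al be x') R) :
    Depth.IsNode A₀ ϖ₀ (V 0) (V 1) x y R ∨ (Depth.IsSm A₀ ϖ₀ (V 0) R ∧ Away R (V 1)) ∨
      (Depth.IsSm A₀ ϖ₀ (V 1) R ∧ Away R (V 0)) := by
  have hP : IsPt A₀ R := hR.isPt H.mChart hac
  have hB : PtBaseM A₀ ϖ₀ V R := hR.ptBaseM H.mChart
  have c01 : LeLoc R (V 0) → Away R (V 1) → Depth.IsSm A₀ ϖ₀ (V 0) R ∧ Away R (V 1) :=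
    fun h0 a1 => ⟨H.isSm hac hR 0 h0 (fun i' hi' => by
      have : i' = 1 := by omega
      rw [this]; exact a1), a1⟩
  have c10 : LeLoc R (V 1) → Away R (V 0) → Depth.IsSm A₀ ϖ₀ (V 1) R ∧ Away R (V 0) :=
    fun h1 a0 => ⟨H.isSm hac hR 1 h1 (fun i' hi' => by
      have : i' = 0 := by omega
      rw [this]; exact a0), a0⟩
  rcases hB.leLoc_or_away 0 with h0 | a0
  · rcases hB.leLoc_or_away 1 with h1 | a1
    · rcases pt_cases hac H ha hb C hR with hu | hs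
      · exact Or.inl (H.isNode hac E hR (mem_of_runit H hP hu hx) (mem_of_runit H hP hu hy) h0 h1
          (hfin R hR))
      · rcases C.away H.prime.two_le hP hs with hA | hA
        · exact absurd hA (ExportDepth.not_away_of_leLoc h0)
        · exact absurd hA (ExportDepth.not_away_of_leLoc h1)
    · exact Or.inr (Or.inl (c01 h0 a1))
  · rcases hB.leLoc_or_away 1 with h1 | a1
    · exact Or.inr (Or.inr (c10 h1 a0))
    · exact absurd (Fin.forall_fin_two.2 ⟨a0, a1⟩) hB.not_all_away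

/-- **EXPORT**: the nodal model at `e = 1`, with the tautological sets of points. -/
theorem nodalModel [CharZero K₀] (hac : IsAlgClosed (IsLocalRing.ResidueField A₀))
    (H : LQ A₀ ϖ₀ q al be w γ Ow' V x') (E : Eta (algebraMap K₀ F ϖ₀) V x y)
    (hx : ∃ k : ℕ, al x' ^ k * x ∈ ch₁ A₀ al be x') (hy : ∃ k : ℕ, al x' ^ k * y ∈ ch₁ A₀ al be x')
    (ha : JRel A₀ a (al x') (al J)) (hb : JRel A₀ a (be x') (be J))
    (C : CuspQ A₀ q V c (al J)⁻¹ (be J)⁻¹)
    (hfin : ∀ R, IsModelPt A₀ ϖ₀ (xx al be x') R → FinAt A₀ R) :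
    Depth.NodalModel A₀ ϖ₀ 1 (V 0) (V 1) x y {R | Depth.IsSm A₀ ϖ₀ (V 0) R}
      {R | Depth.IsSm A₀ ϖ₀ (V 1) R} {R | Depth.IsNode A₀ ϖ₀ (V 0) (V 1) x y R} where
  unifA := H.vert'.unif₀
  unifi := H.unif_all 0
  unif0 := H.unif_all 1
  consti := H.complete.const_mem 0
  const0 := H.complete.const_mem 1
  e_pos := one_pos
  xy := ⟨ϖ₀, by simp, E.mul_eq⟩
  x_i := E.x_unit
  y_0 := E.y_unit
  smi := fun _ h => h
  sm0 := fun _ h => h
  nd := fun _ h => h
  regi := fun f hf h => H.mChart.const_of_regular hac 0 hf (fun R hR hL => h R (by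
    rcases classify hac H E hx hy ha hb C hfin hR with hn | ⟨hs, -⟩ | ⟨-, ha'⟩
    · exact Or.inr hn
    · exact Or.inl hs
    · exact absurd ha' (ExportDepth.not_away_of_leLoc hL)))
  reg0 := fun f hf h => H.mChart.const_of_regular hac 1 hf (fun R hR hL => h R (by
    rcases classify hac H E hx hy ha hb C hfin hR with hn | ⟨-, ha'⟩ | ⟨hs, -⟩
    · exact Or.inr hn
    · exact absurd ha' (ExportDepth.not_away_of_leLoc hL)
    · exact Or.inl hs))

/-- the analogue of `LQ.exists_point_depth`. -/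
theorem exists_point_depth [CharZero K₀] (hac : IsAlgClosed (IsLocalRing.ResidueField A₀))
    (H : LQ A₀ ϖ₀ q al be w γ Ow' V x') (E : Eta (algebraMap K₀ F ϖ₀) V x y)
    (hx : ∃ k : ℕ, al x' ^ k * x ∈ ch₁ A₀ al be x') (hy : ∃ k : ℕ, al x' ^ k * y ∈ ch₁ A₀ al be x')
    (ha : JRel A₀ a (al x') (al J)) (hb : JRel A₀ a (be x') (be J))
    (C : CuspQ A₀ q V c (al J)⁻¹ (be J)⁻¹)
    (hfin : ∀ R, IsModelPt A₀ ϖ₀ (xx al be x') R → FinAt A₀ R)
    (VV : ValuationSubring F) (hA : ∀ a ∈ A₀, algebraMap K₀ F a ∈ VV) (hle : VV ≤ V 0)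
    (hne : VV ≠ V 0) :
    ∃ R : Subring F, IsModelPt A₀ ϖ₀ (xx al be x') R ∧ Dominates VV R ∧
      (al J ∈ VV →
        Depth.IsNode A₀ ϖ₀ (V 0) (V 1) x y R ∨ (Depth.IsSm A₀ ϖ₀ (V 0) R ∧ RUnit R x)) ∧
      (al J ∉ VV → Depth.IsSm A₀ ϖ₀ (V 0) R) := by
  obtain ⟨R, hR, hd⟩ := H.mChart.proper VV hA 0 hle hne
  have hP : IsPt A₀ R := hR.isPt H.mChart hac
  have hB : PtBaseM A₀ ϖ₀ V R := hR.ptBaseM H.mChart
  have hL0 : LeLoc R (V 0) := hB.leLoc_of_dominates hle hd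
  refine ⟨R, hR, hd, ?_⟩
  rcases pt_cases hac H ha hb C hR with hu | hs
  · have h1 : al J ∈ R := ha.mem_of_runit hP hu
    refine ⟨fun _ => ?_, fun h => absurd (hd.1 _ h1) h⟩
    rcases classify hac H E hx hy ha hb C hfin hR with hn | ⟨hs, ha'⟩ | ⟨-, ha'⟩
    · exact Or.inl hn
    · exact Or.inr ⟨hs, hB.runit_x E (mem_of_runit H hP hu hx) (mem_of_runit H hP hu hy) ha'⟩
    · exact absurd ha' (ExportDepth.not_away_of_leLoc hL0)
  · refine ⟨fun h => ?_, fun _ => ?_⟩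
    · exfalso
      have h3 := hd.2 _ hs
      have h4 := (VV.valuation_le_one_iff _).2 h
      have h5 : VV.valuation ((al J)⁻¹ * al J) < 1 := by
        rw [map_mul]
        exact mul_lt_one_of_lt_of_le h3 h4
      rw [inv_mul_cancel₀ (fun h => C.ne (by rw [h, inv_zero])), map_one] at h5
      exact lt_irrefl _ h5
    · have a1 : Away R (V 1) :=
        (C.away H.prime.two_le hP hs).resolve_left (ExportDepth.not_away_of_leLoc hL0)
      exact H.isSm hac hR 0 hL0 (fun i' hi' => by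
        have : i' = 1 := by omega
        rw [this]; exact a1)

end Fermat.Agent.S43.E0.ThreeE

end
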