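/-
Row 37 (S43), block E0, node `q = 3` (helper155).  ABSTRACT PART, II: `CuspQ` for `J` from the hub with
coordinate `x'` (Kronecker's congruence for `J`), and the membership `x'(z) ^ k * z ∈ ch₁` for a function
`z` which is integral over `K₀[J(z)]`.
-/
import Fermat.Agent.S43.E0.ThreeE.Abs
import Fermat.Agent.S15.Ext.Homog

set_option autoImplicit false

noncomputable section

namespace Fermat.Agent.S43.E0.ThreeE

open Polynomial IntermediateField Fermat.Agent.S18 Fermat.Agent.S36.BP Fermat.Agent.BAD.Model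
  Fermat.Agent.BAD.LevelQ Fermat.Agent.S44

variable {K₀ F' F : Type*} [Field K₀] [Field F'] [Field F] [Algebra K₀ F'] [Algebra K₀ F]
variable {A₀ : ValuationSubring K₀} {ϖ₀ : K₀} {q : ℕ} {al be : F' →ₐ[K₀] F} {w : F ≃ₐ[K₀] F}
  {γ : F' →+* F'} {Ow' : ValuationSubring F'} {V : Fin 2 → ValuationSubring F} {x' J : F'}
variable {c : ℕ → ℕ → K₀} {a : K₀}

/-- `J(z)` is a unit of a vertical valuation ring. -/
theorem JRel.valuation_eq_one {W : ValuationSubring F} {h j : F} (hJ : JRel A₀ a h j)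
    (hh : IsMCoord A₀ W h) (hc : ∀ a ∈ A₀, algebraMap K₀ F a ∈ W) : W.valuation j = 1 := by
  have h1 : W.valuation (aeval h (1 + C a * X : K₀[X])) = 1 := by
    refine hh.valuation_aeval_eq_one hc (fun i => ?_) ⟨0, by simp⟩
    have ha : a ∈ A₀ := (A₀.valuation_le_one_iff _).1 hJ.unit.le
    rw [coeff_add, coeff_C_mul, coeff_one, coeff_X]
    split_ifs <;> simp [ha, A₀.one_mem, A₀.zero_mem, A₀.add_mem]
  have h2 : aeval h (1 + C a * X : K₀[X]) = 1 + algebraMap K₀ F a * h := by simp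
  rw [h2] at h1
  have h3 := congrArg W.valuation hJ.rel
  rwa [map_mul, map_pow, h1, one_pow, hh.valuation_eq_one, mul_one] at h3

/-- **`CuspQ` for `J`** from the modular equation of `J` and the hub with coordinate `x'`. -/
theorem cuspQ_of_rel (H : LQ A₀ ϖ₀ q al be w γ Ow' V x')
    (hc : ∀ a b, c a b ∈ A₀) (h0 : A₀.valuation (c 0 0) = 1) (hγ : γ J = J)
    (ha : JRel A₀ a (al x') (al J)) (hrel : Rel q c (al J)⁻¹ (be J)⁻¹) :
    CuspQ A₀ q V c (al J)⁻¹ (be J)⁻¹ := by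
  have hv : (V 0).valuation (al J) = 1 :=
    ha.valuation_eq_one (H.isMCoord_al 0) (H.complete.const_mem 0)
  have ha0 : al J ≠ 0 := fun h => by rw [h, map_zero] at hv; exact zero_ne_one hv
  have hJ0 : J ≠ 0 := fun h => ha0 (by rw [h, map_zero])
  have hb0 : be J ≠ 0 := (map_ne_zero be).2 hJ0
  have hmem : J ∈ Ow' := (H.comap_al J).1 ((ValuationSubring.valuation_le_one_iff _ _).1 hv.le)
  have cong0 : (V 0).valuation ((al J)⁻¹ ^ q / (be J)⁻¹ - 1) < 1 := by
    have h1 := H.kron J hmem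
    rw [hγ] at h1
    have e : (al J)⁻¹ ^ q / (be J)⁻¹ - 1 = (be J - al J ^ q) * (al J ^ q)⁻¹ := by
      have := pow_ne_zero q ha0
      rw [div_inv_eq_mul, inv_pow]
      field_simp
    rw [e, map_mul, map_inv₀, map_pow, hv, one_pow, inv_one, mul_one]
    exact h1
  refine ⟨hc, h0, inv_ne_zero ha0, inv_ne_zero hb0, hrel, cong0, ?_⟩
  rw [H.val_one_lt]
  have e : w ((be J)⁻¹ ^ q / (al J)⁻¹ - 1) = (al J)⁻¹ ^ q / (be J)⁻¹ - 1 := by
    rw [map_sub, map_div₀, map_pow, map_inv₀, map_inv₀, H.w_be, H.w_al, map_one]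
  rw [e]
  exact cong0

/-- a function which is integral over `K₀[J(z)]` and at the two vertical valuations lies in the first chart
after multiplication by a power of `x'(z)`. -/
theorem exists_pow_mul_mem_ch₁ (H : LQ A₀ ϖ₀ q al be w γ Ow' V x')
    (ha : JRel A₀ a (al x') (al J)) {z : F} (hz : z ∈ chart (⊤ : Subring K₀) (al J))
    (hV : ∀ c, z ∈ V c) : ∃ k : ℕ, al x' ^ k * z ∈ ch₁ A₀ al be x' := by
  have e : al J = (1 + algebraMap K₀ F a * al x') ^ 3 / al x' := by
    rw [← ha.rel, mul_div_cancel_right₀ _ ha.ne]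
  rw [e] at hz
  have hx : al x' ∈ polyRing (⊤ : Subring K₀) (al x') := by
    rw [mem_polyRing_iff]
    exact ⟨X, fun _ => Subring.mem_top _, aeval_X _⟩
  have ht : (1 + algebraMap K₀ F a * al x') ^ 3 ∈ polyRing (⊤ : Subring K₀) (al x') := by
    rw [mem_polyRing_iff]
    exact ⟨(1 + C a * X) ^ 3, fun _ => Subring.mem_top _, by simp⟩
  obtain ⟨N, hN⟩ := S15.Ext.exists_pow_mul_mem_chart (⊤ : Subring K₀) ht hx ha.ne hz
  refine ⟨N, ?_⟩
  rw [← H.chart_al_eq, mem_chart_iff H.complete H.isMCoord_al]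
  exact ⟨fun c => (V c).mul_mem _ _ ((V c).pow_mem (H.isMCoord_al c).mem N) (hV c), hN N le_rfl⟩

end Fermat.Agent.S43.E0.ThreeE

end
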