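/-
Row 37 (S43), block E0, node `q = 3` (helper155).  The relation `j h₂ = (1 + 256 h₂) ^ 3` in the function
fields `FK K M`, and its two pull-backs to level `M q`.
-/
import Fermat.Agent.S43.E0.ThreeE.Abs
import Fermat.Agent.S34.Nodal.Inst.Base
import Fermat.Agent.BAD.LevelQ.Mod.Main

set_option autoImplicit false
set_option linter.unusedSectionVars false

noncomputable section

namespace Fermat.Agent.S43.E0.ThreeE

open ModularCurve Fermat.Agent.S24 Fermat.Agent.S18 Fermat.Agent.S18.Base Fermat.Agent.S36.Mod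
  Fermat.Agent.BAD.LevelQ Fermat.Agent.BAD.LevelQ.Mod Fermat.Agent.BAD.Model
  Fermat.Agent.Lib.Hauptmodul

variable {K : Type*} [Field K] [Algebra ℚ K] {M : ℕ} [NeZero M]

theorem jK_mul_xK_h2 (D : BaseData M 3) (hD : D.X = mkX 1 u2Z) :
    jK K M * D.xK K = (1 + 256 * D.xK K) ^ 3 := by
  apply Subtype.ext
  have e : coeffMap (Int.castRingHom ℚ) (mkX 1 u2Z) = h2q := coeffMap_mkX_one u2Z
  show coeffEmb K jq * coeffEmb K (coeffMap (Int.castRingHom ℚ) D.X) =
    (1 + 256 * coeffEmb K (coeffMap (Int.castRingHom ℚ) D.X)) ^ 3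
  rw [hD, e, ← map_mul, jq_mul_h2q]
  simp only [map_pow, map_add, map_mul, map_one, map_ofNat]

end Fermat.Agent.S43.E0.ThreeE

end
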