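/-
Row 37 (S43), block E0, node `q = 3` (helper155): **the model package `ModelE` at `q = 3`**.

The hub `LQ` is taken with the coordinate `x' = h₂` (`j` is not a good base at `3`); the cusps are detected
by `j`, `j h₂ = (1 + 256 h₂) ^ 3`, and the modular equation is the one of `j`
(`S43/E0/ThreeE/Abs.lean`, `Abs2.lean`).
-/
import Fermat.Agent.S43.E0.ThreeE.Abs2
import Fermat.Agent.S43.E0.ThreeE.Rel
import Fermat.Agent.S43.E0.Slope.Main
import Fermat.Agent.BAD.LevelQ.Mod.PoleH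
import Fermat.Agent.BAD.LevelQ.Mod.CuspQ
import Fermat.Agent.BAD.LevelQ.Mod.MainSub

set_option autoImplicit false
set_option linter.unusedSectionVars false

noncomputable section

namespace Fermat.Agent.S43.E0.ThreeE

open ModularCurve AlgebraicCurve Fermat.Agent.S24 Fermat.Agent.S18 Fermat.Agent.S36.Mod
  Fermat.Agent.BAD.LevelQ Fermat.Agent.BAD.LevelQ.Mod Fermat.Agent.Lib.EtaUnit
  Fermat.Agent.Lib.InertiaField Fermat.Agent.S36.BP Fermat.Agent.S44.X Fermat.Agent.S44.X.Model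
  Fermat.Agent.S28.Export Fermat.Agent.S44.Depth.Inst Fermat.Agent.S44 Fermat.Agent.S44.Depth
  Fermat.Agent.S43.E0.Slope Fermat.Agent.S34.Nodal.Inst

variable {A : ValuationSubring S44.Qb} {M' : ℕ} [NeZero M']

theorem valuation_256 {K₀ : Type*} [Field K₀] {A₀ : ValuationSubring K₀}
    (h : A₀.valuation ((3 : ℕ) : K₀) < 1) : A₀.valuation (256 : K₀) = 1 := by
  have e : (256 : K₀) = 1 + ((3 : ℕ) : K₀) * 85 := by norm_num
  rw [e]
  refine Valuation.map_one_add_of_lt _ ?_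
  rw [map_mul]
  refine mul_lt_one_of_lt_of_le h ?_
  rw [ValuationSubring.valuation_le_one_iff]
  exact ofNat_mem A₀ 85

theorem eta_x_mem {F : Type*} [Field F] {ϖ x y : F} {V : Fin 2 → ValuationSubring F}
    (E : Eta ϖ V x y) (hϖ : ∀ c, ϖ ∈ V c) (c : Fin 2) : x ∈ V c := by
  rw [← ValuationSubring.valuation_le_one_iff]
  fin_cases c
  · exact E.x_unit.le
  · show (V 1).valuation x ≤ 1
    have e : (V 1).valuation x = (V 1).valuation ϖ := by
      rw [← E.mul_eq, map_mul, E.y_unit, mul_one]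
    rw [e, ValuationSubring.valuation_le_one_iff]
    exact hϖ 1

theorem eta_y_mem {F : Type*} [Field F] {ϖ x y : F} {V : Fin 2 → ValuationSubring F}
    (E : Eta ϖ V x y) (hϖ : ∀ c, ϖ ∈ V c) (c : Fin 2) : y ∈ V c := by
  rw [← ValuationSubring.valuation_le_one_iff]
  fin_cases c
  · show (V 0).valuation y ≤ 1
    have e : (V 0).valuation y = (V 0).valuation ϖ := by
      rw [← E.mul_eq, map_mul, E.x_unit, one_mul]
    rw [e, ValuationSubring.valuation_le_one_iff]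
    exact hϖ 0
  · exact E.y_unit.le

/-- **The model package at `q = 3`.** -/
theorem modelE_three [IsDiscreteValuationRing (A0 A)] (hqM' : ¬ 3 ∣ M') (hc4 : Nat.Coprime 3 4)
    (hc : (M' * 4).Coprime 3) (hA : A.LiesOverPrime 3) : ModelE 3 M' hc4 hc A := by
  have hq : Nat.Prime 3 := by norm_num
  have hqM : ¬ 3 ∣ M' * 4 := fun h => hqM' (hc4.dvd_of_dvd_mul_right h)
  have hN : 4 * 3 ∣ M' * 4 * 3 := ⟨M', by ring⟩
  have h4 : 4 ∣ M' * 4 := Dvd.intro_left M' rfl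
  have h2 : 2 ∣ M' * 4 := ⟨M' * 2, by ring⟩
  obtain ⟨D, hX, hDbar⟩ := S34.Nodal.Inst.Base.exists_baseData_h2 (M' * 4) h2
  have hB : BaseOK (M' * 4) 3 (D.xK Kbar) := by
    rw [hDbar]; exact Ord.baseOK_h2 hq h2 (by norm_num)
  obtain ⟨γ₀, -, H⟩ := lq_inertia A hq hA hc D (beInt_of_baseOK D hB)
  have h256 : (A0 A).valuation (256 : K0 A) = 1 := valuation_256 H.char
  have hrel := jK_mul_xK_h2 (K := K0 A) D hX
  have e256 : (256 : FK (K0 A) (M' * 4)) = algebraMap (K0 A) _ 256 := (map_ofNat _ 256).symm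
  rw [e256] at hrel
  have ha : JRel (A0 A) (256 : K0 A) (al (K0 A) (M' * 4) 3 (D.xK (K0 A)))
      (al (K0 A) (M' * 4) 3 (jK (K0 A) (M' * 4))) :=
    ⟨h256, (H.isMCoord_al 0).ne_zero, by
      rw [← map_mul, hrel]
      simp only [map_pow, map_add, map_one, map_mul, AlgHom.commutes]⟩
  have hb : JRel (A0 A) (256 : K0 A) (be (K0 A) (M' * 4) 3 (D.xK (K0 A)))
      (be (K0 A) (M' * 4) 3 (jK (K0 A) (M' * 4))) :=
    ⟨h256, (H.isMCoord_be 0).ne_zero, by
      rw [← map_mul, hrel]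
      simp only [map_pow, map_add, map_one, map_mul, AlgHom.commutes]⟩
  obtain ⟨c', h0, hrel'⟩ := exists_rel_j (K := K0 A) (M := M' * 4) hq
  have C := cuspQ_of_rel H (fun a b => intCast_mem (A0 A) _)
    (by rw [h0]; simp) (gam_jK γ₀) ha hrel'
  have E := etaW1 isW1_G4 hc4 h4 hc hN (A₀ := A0 A) (K := K0 A)
  have hac := isAlgClosed_residueField_A0 A 3 hq hA
  have hfin := nodeFinD 3 A hq hA (M' * 4 * 3) _ _ H.mChart
  have E' : Eta (algebraMap (K0 A) (FK (K0 A) (M' * 4 * 3)) ((3 : ℕ) : K0 A)) (VV (A0 A) hc)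
      (unitK isW1_G4 3 (M' * 4 * 3) hc4 hN (K0 A)) (yK isW1_G4 hc4 hN (K0 A)) := by
    rw [map_natCast]
    exact E
  have hx : ∃ k : ℕ, al (K0 A) (M' * 4) 3 (D.xK (K0 A)) ^ k *
      unitK isW1_G4 3 (M' * 4 * 3) hc4 hN (K0 A) ∈
        ch₁ (A0 A) (al (K0 A) (M' * 4) 3) (be (K0 A) (M' * 4) 3) (D.xK (K0 A)) := by
    refine exists_pow_mul_mem_ch₁ H ha (unitK_mem_chart_top isW1_G4 3 (M' * 4 * 3) hc4 hN (K0 A))
      (eta_x_mem E fun c => natCast_mem _ 3)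
  have hy : ∃ k : ℕ, al (K0 A) (M' * 4) 3 (D.xK (K0 A)) ^ k * yK isW1_G4 hc4 hN (K0 A) ∈
        ch₁ (A0 A) (al (K0 A) (M' * 4) 3) (be (K0 A) (M' * 4) 3) (D.xK (K0 A)) := by
    refine exists_pow_mul_mem_ch₁ H ha (Subring.mul_mem _ (natCast_mem _ 3)
      (unitK_inv_mem_chart_top isW1_G4 3 (M' * 4 * 3) hc4 hN (K0 A)))
      (eta_y_mem E fun c => natCast_mem _ 3)
  refine ⟨unitK isW1_G4 3 (M' * 4 * 3) hc4 hN (K0 A),
    yK isW1_G4 hc4 hN (K0 A), _, _, _, nodalModel hac H E' hx hy ha hb C hfin,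
    baseChangeMap_unitK isW1_G4 3 (M' * 4 * 3) hc4 hN _, fun w => ?_⟩
  obtain ⟨R, -, hdom, h1, h2⟩ := exists_point_depth hac H E' hx hy ha hb C hfin
    (VVw (comap_A0 A) hq hA hqM w)
    (const_mem_VVw (comap_A0 A) hq hA hqM w) (VVw_le (comap_A0 A) hq hA hqM w)
    (VVw_ne (comap_A0 A) hq hA hqM w (resFieldMap_surjective hq hA))
  refine ⟨R, MD.centred hq hA hqM w hdom, ?_⟩
  by_cases hw : 0 ≤ w.ord (jk A (M' * 4))
  · rcases h1 ((al_jK_mem_VVw_iff hq hqM hA w).2 hw) with hn | ⟨hs, hu⟩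
    · exact Or.inl ⟨hn, hw⟩
    · exact Or.inr ⟨hs, fun _ => hu⟩
  · exact Or.inr ⟨h2 fun hmem => hw ((al_jK_mem_VVw_iff hq hqM hA w).1 hmem),
      fun h => absurd h hw⟩

/-- **The model package for every odd prime `q`.** -/
theorem modelE_all {q : ℕ} [NeZero q] [IsDiscreteValuationRing (A0 A)] (hq : q.Prime)
    (hqM' : ¬ q ∣ M') (hc4 : Nat.Coprime q 4) (hc : (M' * 4).Coprime q) (hA : A.LiesOverPrime q) :
    ModelE q M' hc4 hc A := by
  by_cases h5 : 5 ≤ q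
  · exact modelE hq h5 hqM' hc4 hc hA
  · have h3 : q = 3 := by
      have h2 := hq.two_le
      have : q ≠ 2 := by rintro rfl; revert hc4; decide
      have : q ≠ 4 := by rintro rfl; revert hc4; decide
      omega
    subst h3
    exact modelE_three hqM' hc4 hc hA

/-- **The slope formula for every odd prime `q`.** -/
theorem slope_all {q : ℕ} [NeZero q] [IsDiscreteValuationRing (A0 A)] (hq : q.Prime)
    (hqM' : ¬ q ∣ M') (hc4 : Nat.Coprime q 4) (hc : (M' * 4).Coprime q) (hA : A.LiesOverPrime q)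
    {n : ℕ} (hn : n ≠ 0) {u : FK (K0 A) (M' * 4 * q)} (hu : u ≠ 0) (hd : HorDiv (K0 A) n u)
    {ai a0 : ℤ}
    (hai : (VV (A0 A) hc 0).valuation u =
      (VV (A0 A) hc 0).valuation (algebraMap (K0 A) (FK (K0 A) (M' * 4 * q)) (q : K0 A)) ^ ai)
    (ha0 : (VV (A0 A) hc 1).valuation u =
      (VV (A0 A) hc 1).valuation (algebraMap (K0 A) (FK (K0 A) (M' * 4 * q)) (q : K0 A)) ^ a0)
    {ubar : Fk A (M' * 4)}
    (hub : IsRed A (bcK (K0 A) (M' * 4 * q) u) (ubar : LaurentSeries (kA A)))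
    {xbar : Fk A (M' * 4)} (hxb : IsRed A (xU q M' hc4) (xbar : LaurentSeries (kA A))) :
    (∀ w : Place (kA A) (Fk A (M' * 4)), 0 ≤ w.ord (jk A (M' * 4)) →
      (n : ℤ) ∣ w.ord ubar - (a0 - ai) * w.ord xbar) ∧
    (∀ w : Place (kA A) (Fk A (M' * 4)), w.ord (jk A (M' * 4)) < 0 → (n : ℤ) ∣ w.ord ubar) :=
  slope_of_model hq hqM' hc4 hc hA (modelE_all hq hqM' hc4 hc hA) hn hu hd hai ha0 hub hxb

end Fermat.Agent.S43.E0.ThreeE

end
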